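import Fermat.Agent.S55.Shapiro9.Explicit2
import Fermat.Agent.S55.Idele73.ShapiroInj

/-!
# S55 (helper9): explicit Mackey–Shapiro in degree 2

`φ : Γ →* G` injective, `A : Rep k Γ`, `H ≤ G`, `R` a system of representatives of
`φ(Γ) \ G / H` (helper73's `Idele73.Mackey` vocabulary).  For `x : G` the *localisation at `x`*

`loc₂ x : H²(H, Res_H Coind_φ A) ⟶ H²(Γ_x, A)`,  `[F] ↦ [(τ₁, τ₂) ↦ F(x⁻¹τ₁x, x⁻¹τ₂x)(x)]`

is restriction along the twisted embedding `Γ_x → H` followed by evaluation at `x`.  We prove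
that the family `(loc₂ x)_{x ∈ R}` is jointly injective and jointly surjective.
-/

set_option autoImplicit false

open CategoryTheory groupCohomology Rep

namespace Fermat.Agent.S55.Shapiro9

open Fermat.Agent.S55.Idele73

variable {k : Type} [CommRing k] {Γ G : Type} [Group Γ] [Group G] (φ : Γ →* G)
  (A : Rep.{0} k Γ) (H : Subgroup G) (x : G)

/-- the local module at `x`: `A` restricted to `Γ_x` -/
noncomputable abbrev locRep : Rep.{0} k (Mackey.twSub φ H x) :=
  Rep.res (Mackey.twSub φ H x).subtype A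

/-- projection to the `x`-component on `H²` -/
noncomputable abbrev proj₂ : H2 (Mackey.resCoind φ A H) ⟶ H2 (Mackey.comp φ A H x) :=
  groupCohomology.map (MonoidHom.id H) (Mackey.toComp φ A H x) 2

/-- inclusion of the `x`-component on `H²` -/
noncomputable abbrev incl₂ : H2 (Mackey.comp φ A H x) ⟶ H2 (Mackey.resCoind φ A H) :=
  groupCohomology.map (MonoidHom.id H) (Mackey.fromComp φ A H x) 2

/-- the explicit Shapiro map of the `x`-component -/
noncomputable abbrev shap₂ : H2 (Mackey.comp φ A H x) ⟶ H2 (locRep φ A H x) :=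
  groupCohomology.map (Mackey.twHom φ H x) (ev (Mackey.twHom φ H x) (locRep φ A H x)) 2

/-- **localisation at `x`** on `H²` -/
noncomputable def loc₂ : H2 (Mackey.resCoind φ A H) ⟶ H2 (locRep φ A H x) :=
  proj₂ φ A H x ≫ shap₂ φ A H x

theorem loc₂_apply (c : H2 (Mackey.resCoind φ A H)) :
    (loc₂ φ A H x).hom c = (shap₂ φ A H x).hom ((proj₂ φ A H x).hom c) := rfl

/-- explicit localisation at `x` on `2`-cochains: restrict along `τ ↦ x⁻¹ τ x`, evaluate at `x` -/
def locFun (F : H × H → Mackey.resCoind φ A H) :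
    Mackey.twSub φ H x × Mackey.twSub φ H x → A :=
  fun p => ((F (Mackey.twHom φ H x p.1, Mackey.twHom φ H x p.2) :
    Mackey.resCoind φ A H) : G → A) x

theorem locFun_eq_sh₂ (F : H × H → Mackey.resCoind φ A H) :
    locFun φ A H x F = sh₂ (Mackey.twHom φ H x) (locRep φ A H x)
      (fun q => (Mackey.toComp φ A H x).hom (F q)) := by
  funext p
  show _ = ((F (Mackey.twHom φ H x p.1, Mackey.twHom φ H x p.2) :
      Mackey.resCoind φ A H) : G → A) (x * ((1 : H) : G))
  rw [Subgroup.coe_one, mul_one]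
  rfl

theorem locFun_mem_cocycles₂ {F : H × H → Mackey.resCoind φ A H}
    (hF : F ∈ cocycles₂ (Mackey.resCoind φ A H)) :
    locFun φ A H x F ∈ cocycles₂ (locRep φ A H x) := by
  rw [mem_cocycles₂_iff]
  intro τ₁ τ₂ τ₃
  have h := (mem_cocycles₂_iff F).1 hF (Mackey.twHom φ H x τ₁) (Mackey.twHom φ H x τ₂)
    (Mackey.twHom φ H x τ₃)
  have h' := congrArg (fun f : Mackey.resCoind φ A H => (f : G → A) x) h
  have h'' : ((F (Mackey.twHom φ H x (τ₁ * τ₂), Mackey.twHom φ H x τ₃) :
        Mackey.resCoind φ A H) : G → A) x +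
      ((F (Mackey.twHom φ H x τ₁, Mackey.twHom φ H x τ₂) : Mackey.resCoind φ A H) : G → A) x =
    ((F (Mackey.twHom φ H x τ₂, Mackey.twHom φ H x τ₃) : Mackey.resCoind φ A H) : G → A)
        (x * ((Mackey.twHom φ H x τ₁ : H) : G)) +
      ((F (Mackey.twHom φ H x τ₁, Mackey.twHom φ H x (τ₂ * τ₃)) :
        Mackey.resCoind φ A H) : G → A) x := by
    rw [map_mul, map_mul]
    exact h'
  have e : x * ((Mackey.twHom φ H x τ₁ : H) : G) = φ (τ₁ : Γ) * x := by
    rw [Mackey.coe_twHom]; group
  rw [e, (F (Mackey.twHom φ H x τ₂, Mackey.twHom φ H x τ₃)).2 (τ₁ : Γ) x] at h''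
  exact h''

/-- the localisation of the class of a cocycle -/
theorem loc₂_H2π (F : cocycles₂ (Mackey.resCoind φ A H)) :
    (loc₂ φ A H x).hom (H2π _ F) =
      H2π (locRep φ A H x) ⟨locFun φ A H x F.1, locFun_mem_cocycles₂ φ A H x F.2⟩ := by
  rw [loc₂_apply]
  have h1 : (proj₂ φ A H x).hom (H2π _ F) =
      H2π _ (mapCocycles₂ (MonoidHom.id H) (Mackey.toComp φ A H x) F) := by
    show (groupCohomology.map (MonoidHom.id H) (Mackey.toComp φ A H x) 2) (H2π _ F) = _
    rw [H2π_comp_map_apply (MonoidHom.id H)]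
  rw [h1, shapiro₂_H2π]
  congr 1
  apply Subtype.ext
  exact (locFun_eq_sh₂ φ A H x F.1).symm

variable (hφ : Function.Injective φ)

include hφ

theorem shap₂_bijective : Function.Bijective (shap₂ φ A H x).hom :=
  shapiro₂_bijective_of_injective _ _ (ShapiroInj.twHom_injective φ hφ H x)

omit hφ in
theorem proj₂_incl₂ : incl₂ φ A H x ≫ proj₂ φ A H x = 𝟙 _ := by
  show groupCohomology.map (MonoidHom.id H) _ 2 ≫ groupCohomology.map (MonoidHom.id H) _ 2 = _
  rw [← groupCohomology.map_id_comp, Mackey.fromComp_toComp]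
  exact groupCohomology.map_id (B := Mackey.comp φ A H x) (n := 2)

omit hφ in
theorem proj₂_incl₂_of_not {y : G} (hy : ¬ Mackey.InDC φ H x y) :
    incl₂ φ A H x ≫ proj₂ φ A H y = 0 := by
  show groupCohomology.map (MonoidHom.id H) _ 2 ≫ groupCohomology.map (MonoidHom.id H) _ 2 = _
  rw [← groupCohomology.map_id_comp, Mackey.fromComp_toComp_of_not φ A H x hy]
  rw [groupCohomology.map, cochainsMap_zero, HomologicalComplex.homologyMap_zero]
  rfl

omit hφ in
theorem sum_incl₂_proj₂ {R : Finset G} (hR : Mackey.IsRepr φ H R)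
    (c : H2 (Mackey.resCoind φ A H)) :
    ∑ x ∈ R, (incl₂ φ A H x).hom ((proj₂ φ A H x).hom c) = c := by
  have key0 : ∑ x ∈ R, (groupCohomology.functor k H 2).map
      (Mackey.toComp φ A H x ≫ Mackey.fromComp φ A H x) = 𝟙 _ := by
    rw [← CategoryTheory.Functor.map_sum, Mackey.sum_toComp_fromComp φ A H hR,
      CategoryTheory.Functor.map_id]
  have key : ∑ x ∈ R, groupCohomology.map (MonoidHom.id H)
      (Mackey.toComp φ A H x ≫ Mackey.fromComp φ A H x) 2 =
      𝟙 (H2 (Mackey.resCoind φ A H)) := key0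
  have h : (∑ x ∈ R, groupCohomology.map (MonoidHom.id H)
      (Mackey.toComp φ A H x ≫ Mackey.fromComp φ A H x) 2).hom c = c := by
    rw [key]
    rfl
  rw [ModuleCat.hom_sum, LinearMap.sum_apply] at h
  refine (Finset.sum_congr rfl ?_).trans h
  intro x _
  rw [groupCohomology.map_id_comp]
  rfl

/-- **joint injectivity of the localisations** -/
theorem loc₂_jointly_injective {R : Finset G} (hR : Mackey.IsRepr φ H R)
    (c : H2 (Mackey.resCoind φ A H)) (h : ∀ x ∈ R, (loc₂ φ A H x).hom c = 0) : c = 0 := by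
  rw [← sum_incl₂_proj₂ φ A H hR c]
  apply Finset.sum_eq_zero
  intro x hx
  have h0 : (proj₂ φ A H x).hom c = 0 := by
    apply (shap₂_bijective φ A H x hφ).1
    rw [map_zero]
    exact h x hx
  rw [h0, map_zero]

/-- **joint surjectivity of the localisations** -/
theorem loc₂_jointly_surjective {R : Finset G} (hR : Mackey.IsRepr φ H R)
    (u : ∀ x : R, H2 (locRep φ A H (x : G))) :
    ∃ c : H2 (Mackey.resCoind φ A H), ∀ x : R, (loc₂ φ A H (x : G)).hom c = u x := by
  classical
  choose v hv using fun x : R => (shap₂_bijective φ A H (x : G) hφ).2 (u x)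
  refine ⟨∑ x : R, (incl₂ φ A H (x : G)).hom (v x), ?_⟩
  intro y
  rw [loc₂_apply, map_sum]
  have : ∑ x : R, (proj₂ φ A H (y : G)).hom ((incl₂ φ A H (x : G)).hom (v x)) = v y := by
    rw [Finset.sum_eq_single y]
    · have := congrArg (fun f => f.hom (v y)) (proj₂_incl₂ φ A H (y : G))
      exact this
    · intro x _ hxy
      have hn : ¬ Mackey.InDC φ H (x : G) (y : G) := fun hxy' =>
        hxy (Subtype.ext (hR.2 x x.2 y y.2 hxy'))
      have := congrArg (fun f => f.hom (v x)) (proj₂_incl₂_of_not φ A H (x : G) hn)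
      exact this
    · intro h
      exact absurd (Finset.mem_univ y) h
  rw [this, hv]

/-- a class with prescribed localisation at one representative and trivial localisation at the
others -/
theorem exists_loc₂_eq_single {R : Finset G} (hR : Mackey.IsRepr φ H R) (x₀ : R)
    (u₀ : H2 (locRep φ A H (x₀ : G))) :
    ∃ c : H2 (Mackey.resCoind φ A H), (loc₂ φ A H (x₀ : G)).hom c = u₀ ∧
      ∀ x : R, x ≠ x₀ → (loc₂ φ A H (x : G)).hom c = 0 := by
  classical
  obtain ⟨c, hc⟩ := loc₂_jointly_surjective φ A H hφ hR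
    (fun x => if h : x = x₀ then h ▸ u₀ else 0)
  refine ⟨c, ?_, ?_⟩
  · have := hc x₀
    rw [dif_pos rfl] at this
    exact this
  · intro x hx
    have := hc x
    rw [dif_neg hx] at this
    exact this

end Fermat.Agent.S55.Shapiro9
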