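import Fermat.Agent.S55.DegSum22.Main
import Fermat.Agent.S55.Shapiro9.Mackey2

/-!
# S55 / 35-GLOBAL-INV, third seat (helper9): (J3) and (J4) for the coinduced part of the idele module

Setting of `DegSum22.Main` (helper22): `φ : Γ →* G` injective (a decomposition group inside the
finite Galois group `G`), `A : Rep k Γ` (the local units), `J = Rep.coind φ A` (the `q`-component
of the idele module), `I : DegSum22.LocInvSystem A T` (the local invariants of the intermediate
fields).  We combine helper22's component maps `sh φ A H x` with the explicit Shapiro / Mackey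
decomposition of `Shapiro9.Mackey2`:

* `sh_eq_loc₂`             : `DegSum22.sh = Shapiro9.loc₂`;
* `sh_jointly_injective`   : a class of `H²(H, J)` all of whose components vanish is zero;
* `exists_sh_eq_single`    : a class with prescribed component at one place, zero elsewhere;
* `rsMap_eq_zero_of_nsmul_eq_zero` **(J3)** : an `n`-torsion class of `H²(H, J)` dies on `M ≤ H`
  as soon as all local degrees of `M` in `H` are divisible by `n` (local invariants injective
  on `n`-torsion);
* `exists_split_class` **(J4)** : a local class at one place which is split by the local layer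
  of `N ⊴ H` comes from a class of `H²(H, J)` split by `N`, with the same invariant and the same
  torsion.
-/

set_option autoImplicit false

namespace Fermat.Agent.S55.Shapiro9.JSplit

open CategoryTheory groupCohomology Fermat.Agent.S55.Idele73 Fermat.Agent.S55.DegSum22

variable {k : Type} [CommRing k] {Γ G : Type} [Group Γ] [Group G] (φ : Γ →* G)
  (A : Rep.{0} k Γ)

/-- helper22's component map is the localisation map of `Shapiro9.Mackey2`. -/
theorem sh_eq_loc₂ (H : Subgroup G) (x : G) (c : H2 (Rep.res H.subtype (Rep.coind φ A))) :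
    sh φ A H x c = (Shapiro9.loc₂ φ A H x).hom c := by
  induction c using H2_induction_on with
  | h f =>
    have h1 := sh_H2π φ A H x f
    have h2 := Shapiro9.loc₂_H2π φ A H x f
    refine h1.trans (Eq.trans ?_ h2.symm)
    apply H2π_congr
    intro τ₁ τ₂
    rfl

/-- a system of representatives of the double cosets through a given element -/
theorem exists_isRepr_mem [Finite G] (H : Subgroup G) (x₀ : G) :
    ∃ R : Finset G, Mackey.IsRepr φ H R ∧ x₀ ∈ R := by
  classical
  obtain ⟨R, hR⟩ := Mackey.exists_isRepr φ H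
  obtain ⟨x₁, hx₁, h10⟩ := hR.1 x₀
  have h01 : Mackey.InDC φ H x₀ x₁ := Mackey.inDC_comm φ H _ h10
  refine ⟨insert x₀ (R.erase x₁), ⟨?_, ?_⟩, Finset.mem_insert_self _ _⟩
  · intro g
    obtain ⟨x, hx, hxg⟩ := hR.1 g
    by_cases hxx : x = x₁
    · subst hxx
      exact ⟨x₀, Finset.mem_insert_self _ _, Mackey.inDC_trans φ H _ h01 hxg⟩
    · exact ⟨x, Finset.mem_insert_of_mem (Finset.mem_erase.2 ⟨hxx, hx⟩), hxg⟩
  · intro x hx y hy hxy
    rcases Finset.mem_insert.1 hx with rfl | hx'
    · rcases Finset.mem_insert.1 hy with rfl | hy'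
      · rfl
      · obtain ⟨hne, hyR⟩ := Finset.mem_erase.1 hy'
        exact absurd (hR.2 x₁ hx₁ y hyR (Mackey.inDC_trans φ H _ h10 hxy)).symm hne
    · obtain ⟨hne, hxR⟩ := Finset.mem_erase.1 hx'
      rcases Finset.mem_insert.1 hy with rfl | hy'
      · exact absurd (hR.2 x₁ hx₁ x hxR
          (Mackey.inDC_trans φ H _ h10 (Mackey.inDC_comm φ H _ hxy))).symm hne
      · exact hR.2 x hxR y (Finset.mem_erase.1 hy').2 hxy

/-- restriction commutes with conjugation–restriction -/
theorem rsMap_cjMap {D' D E' E : Subgroup Γ} (σ : Γ) (h : ∀ τ ∈ D', σ⁻¹ * τ * σ ∈ D)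
    (h' : ∀ τ ∈ E', σ⁻¹ * τ * σ ∈ E) (hE' : E' ≤ D') (hE : E ≤ D)
    (u : H2 (Rep.res D.subtype A)) :
    rsMap A hE' (cjMap A D' D σ h u) = cjMap A E' E σ h' (rsMap A hE u) := by
  induction u using H2_induction_on with
  | h f =>
    rw [cjMap_H2π, rsMap_H2π, rsMap_H2π, cjMap_H2π]
    apply H2π_congr
    intro τ₁ τ₂
    rfl

section Inj

variable {φ} (hφ : Function.Injective φ)
include hφ

/-- **joint injectivity of the components**, over a system of representatives -/
theorem sh_jointly_injective_of_isRepr {H : Subgroup G} {R : Finset G}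
    (hR : Mackey.IsRepr φ H R) (c : H2 (Rep.res H.subtype (Rep.coind φ A)))
    (h : ∀ x ∈ R, sh φ A H x c = 0) : c = 0 :=
  Shapiro9.loc₂_jointly_injective φ A H hφ hR c
    (fun x hx => by rw [← sh_eq_loc₂]; exact h x hx)

/-- **joint injectivity of the components** -/
theorem sh_jointly_injective [Finite G] {H : Subgroup G}
    (c : H2 (Rep.res H.subtype (Rep.coind φ A))) (h : ∀ x : G, sh φ A H x c = 0) : c = 0 := by
  obtain ⟨R, hR⟩ := Mackey.exists_isRepr φ H
  exact sh_jointly_injective_of_isRepr A hφ hR c (fun x _ => h x)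

variable {T : Type*} [AddCommGroup T] (I : LocInvSystem A T)

/-- a class of `H²(H, J)` with prescribed component at `x₀`, trivial components at the other
places, and whose invariant is the local invariant of the prescribed component -/
theorem exists_sh_eq_single [Finite G] (H : Subgroup G) (x₀ : G)
    (u₀ : H2 (Rep.res (Mackey.twSub φ H x₀).subtype A)) :
    ∃ c : H2 (Rep.res H.subtype (Rep.coind φ A)), sh φ A H x₀ c = u₀ ∧
      (∀ x, ¬ Mackey.InDC φ H x₀ x → sh φ A H x c = 0) ∧
      invJ φ I H c = I.inv (Mackey.twSub φ H x₀) u₀ := by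
  classical
  obtain ⟨R, hR, hx₀⟩ := exists_isRepr_mem φ H x₀
  obtain ⟨c, hc0, hc⟩ := Shapiro9.exists_loc₂_eq_single φ A H hφ hR ⟨x₀, hx₀⟩ u₀
  have hcR : ∀ x ∈ R, x ≠ x₀ → sh φ A H x c = 0 := by
    intro x hx hne
    rw [sh_eq_loc₂]
    exact hc ⟨x, hx⟩ (fun e => hne (congrArg Subtype.val e))
  have h0 : sh φ A H x₀ c = u₀ := by rw [sh_eq_loc₂]; exact hc0
  refine ⟨c, h0, ?_, ?_⟩
  · intro x hx
    obtain ⟨x₁, hx₁, τ, g, e⟩ := hR.1 x
    have hne : x₁ ≠ x₀ := by
      rintro rfl
      exact hx ⟨τ, g, e⟩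
    rw [e, sh_mul, hcR x₁ hx₁ hne, map_zero]
  · rw [invJ_eq_sum φ I H hR c, Finset.sum_eq_single_of_mem x₀ hx₀]
    · unfold term
      rw [h0]
    · intro x hx hne
      unfold term
      rw [hcR x hx hne, map_zero]

/-- **(J3) for the coinduced part.** An `n`-torsion class of `H²(H, J)` dies on `M ≤ H` as soon
as all local degrees of `M` in `H` are divisible by `n`, provided the local invariants are
injective on `n`-torsion classes. -/
theorem rsMap_eq_zero_of_nsmul_eq_zero [Finite G] (n : ℕ)
    (hinj : ∀ (D : Subgroup Γ) (u : H2 (Rep.res D.subtype A)), n • u = 0 → I.inv D u = 0 → u = 0)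
    {M H : Subgroup G} (h : M ≤ H) (c : H2 (Rep.res H.subtype (Rep.coind φ A)))
    (hc : n • c = 0)
    (hdeg : ∀ x : G, n ∣ (Mackey.twSub φ M x).relIndex (Mackey.twSub φ H x)) :
    rsMap (Rep.coind φ A) h c = 0 := by
  apply sh_jointly_injective A hφ
  intro x
  rw [sh_rsMap]
  have hn : n • sh φ A H x c = 0 := by rw [← map_nsmul, hc, map_zero]
  apply hinj
  · rw [← map_nsmul, hn, map_zero]
  · rw [I.res _ _ _ _ (relIndex_twSub_ne_zero φ h x)]
    obtain ⟨d, hd⟩ := hdeg x
    rw [hd, mul_comm, mul_smul, ← map_nsmul, hn, map_zero, smul_zero]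

/-- **(J4) for the coinduced part.** Let `N ≤ H` be normalised by `H`.  A local class `u₀` at
the place `x₀`, split by the local layer of `N`, is the `x₀`-component of a class of `H²(H, J)`
which is split by `N`, has the invariant of `u₀`, and is killed by every `n` killing `u₀`. -/
theorem exists_split_class [Finite G] {N H : Subgroup G} (h : N ≤ H)
    (hN : ∀ g ∈ H, ∀ z ∈ N, g⁻¹ * z * g ∈ N) (x₀ : G)
    (u₀ : H2 (Rep.res (Mackey.twSub φ H x₀).subtype A))
    (hu₀ : rsMap A (twSub_le φ h x₀) u₀ = 0) :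
    ∃ c : H2 (Rep.res H.subtype (Rep.coind φ A)),
      rsMap (Rep.coind φ A) h c = 0 ∧ sh φ A H x₀ c = u₀ ∧
      invJ φ I H c = I.inv (Mackey.twSub φ H x₀) u₀ ∧ ∀ n : ℕ, n • u₀ = 0 → n • c = 0 := by
  obtain ⟨c, hc0, hc, hinv⟩ := exists_sh_eq_single A hφ I H x₀ u₀
  refine ⟨c, ?_, hc0, hinv, ?_⟩
  · apply sh_jointly_injective A hφ
    intro y
    rw [sh_rsMap]
    by_cases hy : Mackey.InDC φ H x₀ y
    · obtain ⟨σ, g, rfl⟩ := hy
      have h' : ∀ τ ∈ Mackey.twSub φ N (φ σ * x₀ * g),
          σ⁻¹ * τ * σ ∈ Mackey.twSub φ N x₀ := by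
        intro τ hτ
        rw [Mackey.mem_twSub] at hτ ⊢
        have := hN ((g : G)⁻¹) (H.inv_mem g.2) _ hτ
        convert this using 1
        simp only [map_mul, map_inv]
        group
      rw [sh_mul, hc0, rsMap_cjMap A σ _ h' (twSub_le φ h _) (twSub_le φ h x₀), hu₀, map_zero]
    · rw [hc y hy, map_zero]
  · intro n hn
    apply sh_jointly_injective A hφ
    intro y
    rw [map_nsmul]
    by_cases hy : Mackey.InDC φ H x₀ y
    · obtain ⟨σ, g, rfl⟩ := hy
      rw [sh_mul, hc0, ← map_nsmul, hn, map_zero]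
    · rw [hc y hy, smul_zero]

end Inj

end Fermat.Agent.S55.Shapiro9.JSplit
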