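import Fermat.Agent.S55.Shapiro9.SumSplit
import Fermat.Agent.S55.Shapiro9.JSplit
import Fermat.Agent.S55.Idele73.Local
import Fermat.Agent.S55.Idele73.DirectSumRep
import Fermat.Agent.S55.IdeleCoh54.UnrLocal

/-!
# S55 / 35-GLOBAL-INV (helper9): (J3) for the full idele module of the D2 model

`L` a finite Galois level, `S` a finite set of primes, `J = IdeleVal44.JIS L S = J_S(L) × I^S(L)`,
`H ≤ GalL L`.  An `n`-torsion class `x ∈ H²(H, J)` has only finitely many non-trivial components
outside `S` (a finite set `F` of primes `ℓ ∉ S`), and it dies on every `M ≤ H` such that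
* for `q ∈ S`: all local degrees of `M` in `H` above `q` are divisible by `n` (in the double-coset
  form `n ∣ [Γ_{q,g}(H) : Γ_{q,g}(M)]`, `Γ_{q,g}(H) = Mackey.twSub (jE q L) H g`);
* for `ℓ ∈ F`: helper54's power condition of `IdeleCoh54.UnrLocal.res_isCob₂_of_nsmul`.
Inputs from 22b: a system of local invariants `DegSum22.LocInvSystem (EUnits q L) T` for each
`q ∈ S`, injective on `n`-torsion classes.
-/

set_option autoImplicit false
set_option linter.style.haveILetI false
set_option linter.unusedSectionVars false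

namespace Fermat.Agent.S55.Shapiro9.JSplitD2

open CategoryTheory groupCohomology Rep
open Fermat.Agent.S55.GlobalInv91 Fermat.Agent.S55.DegSum22 Fermat.Agent.S55.IdeleVal44
open Fermat.Agent.S55.Idele73 Fermat.Agent.S55.Idele73.Basic Fermat.Agent.S55.Idele73.Local
open Fermat.Agent.S55.Shapiro9.SumSplit Fermat.Agent.S55.CycloRecip37.DescendK

attribute [local instance] Fermat.Agent.S55.IdeleVal44.factPrimes44

section Generic

variable {k : Type} [CommRing k] {Γ : Type} [Group Γ]

/-- the image of a cocycle under a morphism of representations is a cocycle -/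
theorem hom_comp_mem_cocycles₂ {A B : Rep.{0} k Γ} (φ : A ⟶ B) (D : Subgroup Γ)
    (c : cocycles₂ (Rep.res D.subtype A)) :
    (fun p : D × D => φ.hom (c p)) ∈ cocycles₂ (Rep.res D.subtype B) :=
  (psCocycle φ D c).2

/-- the image of a coboundary under a morphism of representations is a coboundary -/
theorem IsCob₂.hom_comp {A B : Rep.{0} k Γ} (φ : A ⟶ B) (D : Subgroup Γ)
    {f : D × D → A} (hf : IsCob₂ (Rep.res D.subtype A) f) :
    IsCob₂ (Rep.res D.subtype B) (fun p => φ.hom (f p)) := by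
  obtain ⟨x, hx⟩ := hf
  refine ⟨fun s => φ.hom (x s), fun g h => ?_⟩
  show B.ρ (g : Γ) (φ.hom (x h)) - φ.hom (x (g * h)) + φ.hom (x g) = φ.hom (f (g, h))
  rw [← hx g h, map_add, map_sub]
  congr 2
  exact (Rep.hom_comm_apply φ (g : Γ) (x h)).symm

/-- `n`-torsion of the class of a cocycle, on cochains -/
theorem isCob₂_nsmul_of_nsmul_H2π {A : Rep.{0} k Γ} (D : Subgroup Γ) (n : ℕ)
    (c : cocycles₂ (Rep.res D.subtype A))
    (h : n • (H2π (Rep.res D.subtype A)).hom c = 0) :
    IsCob₂ (Rep.res D.subtype A) (n • (c : D × D → A)) := by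
  rw [← map_nsmul] at h
  have h2 := (H2π_eq_zero_iff _).1 h
  rw [isCob₂_iff_mem]
  exact h2

end Generic

section Main

variable (L : IntermediateField ℚ Qbar) [Normal ℚ L] [FiniteDimensional ℚ L]
  (S : Finset Nat.Primes) {T : Type*} [AddCommGroup T]

/-- the `q`-component of the idele module, in the coinduced model of the decomposition group -/
noncomputable def compS (q : InS S) : JIS L S ⟶ Rep.coind (jE q.1.1 L) (EUnits q.1.1 L) :=
  prodRep.fst (JS L S) (IS L S) ≫ DirectSumRep.proj (fun q : InS S => Jq q.1.1 L) q ≫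
    (JqIso q.1.1 L).inv

/-- the `q`-component of the idele module -/
noncomputable def projS (q : InS S) : JIS L S ⟶ Jq q.1.1 L :=
  prodRep.fst (JS L S) (IS L S) ≫ DirectSumRep.proj (fun q : InS S => Jq q.1.1 L) q

theorem compS_hom (q : InS S) : compS L S q ≫ (JqIso q.1.1 L).hom = projS L S q := by
  unfold compS projS
  rw [Category.assoc, Category.assoc, Iso.inv_hom_id, Category.comp_id]

/-- the `ℓ`-component of the ideal part -/
noncomputable def compOut (ℓ : OutS S) : JIS L S ⟶ Zq L ℓ.1.1 :=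
  prodRep.snd (JS L S) (IS L S) ≫ DirectSumRep.proj (fun ℓ : OutS S => Zq L ℓ.1.1) ℓ

theorem exists_finset_rsMap_JIS_eq_zero (n : ℕ)
    (I : ∀ q : InS S, LocInvSystem (EUnits q.1.1 L) T)
    (hinj : ∀ (q : InS S) (D : Subgroup (DE q.1.1 L))
      (u : H2 (Rep.res D.subtype (EUnits q.1.1 L))), n • u = 0 → (I q).inv D u = 0 → u = 0)
    (H : Subgroup (GalL L)) (x : H2 (Rep.res H.subtype (JIS L S))) (hx : n • x = 0) :
    ∃ F : Finset (OutS S), ∀ (M : Subgroup (GalL L)) (h : M ≤ H),
      (∀ (q : InS S) (g : GalL L), n ∣ (Mackey.twSub (jE q.1.1 L) M g).relIndex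
        (Mackey.twSub (jE q.1.1 L) H g)) →
      (∀ ℓ ∈ F, ∀ (s : M) (γ : GalL L), γ * s * γ⁻¹ ∈ (locHom ℓ.1.1 L).range →
        ∃ s' : H, γ * s' * γ⁻¹ ∈ (locHom ℓ.1.1 L).range ∧ (s : GalL L) = (s' : GalL L) ^ n) →
      rsMap (JIS L S) h x = 0 := by
  classical
  have : Finite (GalL L) := inferInstance
  induction x using H2_induction_on with
  | h c =>
  -- torsion on cochains
  have hcob : IsCob₂ (Rep.res H.subtype (JIS L S)) (n • (c : H × H → JIS L S)) :=
    isCob₂_nsmul_of_nsmul_H2π H n c hx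
  -- the finite support outside `S`
  have hfin : Set.Finite (⋃ p : H × H, ((dsRep.toDS (fun ℓ : OutS S => Zq L ℓ.1.1)
      (prodRep.p2 (JS L S) (IS L S) (c p))).support : Set (OutS S))) :=
    Set.finite_iUnion (fun p => Finset.finite_toSet _)
  refine ⟨hfin.toFinset, fun M h hS hF => ?_⟩
  have hFmem : ∀ ℓ, ℓ ∉ hfin.toFinset → ∀ p : H × H,
      dsRep.toDS (fun ℓ : OutS S => Zq L ℓ.1.1) (prodRep.p2 (JS L S) (IS L S) (c p)) ℓ = 0 := by
    intro ℓ hℓ p
    by_contra hne
    apply hℓ
    rw [Set.Finite.mem_toFinset, Set.mem_iUnion]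
    exact ⟨p, by simpa using hne⟩
  rw [rsMap_H2π]
  refine (H2π_eq_zero_iff _).2 ?_
  rw [← isCob₂_iff_mem]
  apply isCob₂_res_prodRep
  · apply isCob₂_res_dsRep
    intro q
    -- (J3) for the `q`-component
    have hq : rsMap (Rep.coind (jE q.1.1 L) (EUnits q.1.1 L)) h
        (ps (compS L S q) H ((H2π (Rep.res H.subtype (JIS L S))).hom c)) = 0 := by
      apply JSplit.rsMap_eq_zero_of_nsmul_eq_zero (EUnits q.1.1 L) (jE_injective q.1.1 L) (I q) n
        (hinj q) h
      · rw [← map_nsmul, hx, map_zero]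
      · exact hS q
    have hq' : rsMap (Jq q.1.1 L) h
        (ps (projS L S q) H ((H2π (Rep.res H.subtype (JIS L S))).hom c)) = 0 := by
      rw [← compS_hom L S q, ps_comp, rsMap_ps, hq, map_zero]
    exact isCob₂_of_rsMap_ps_eq_zero (projS L S q) h c hq'
  · apply isCob₂_res_dsRep
    intro ℓ
    by_cases hℓ : ℓ ∈ hfin.toFinset
    · letI : Fintype (GalL L) := Fintype.ofFinite _
      have hc' : (fun p : H × H => (compOut L S ℓ).hom (c p)) ∈
          cocycles₂ (resH (IdeleCoh54.UnrSum.coindInt (locHom ℓ.1.1 L)) H) :=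
        hom_comp_mem_cocycles₂ (compOut L S ℓ) H c
      have hm' : IsCob₂ (resH (IdeleCoh54.UnrSum.coindInt (locHom ℓ.1.1 L)) H)
          (n • fun p : H × H => (compOut L S ℓ).hom (c p)) := by
        have h3 := IsCob₂.hom_comp (compOut L S ℓ) H hcob
        have e : (n • fun p : H × H => (compOut L S ℓ).hom (c p)) =
            fun p : H × H => (compOut L S ℓ).hom ((n • (c : H × H → JIS L S)) p) := by
          funext p
          rw [Pi.smul_apply, Pi.smul_apply, map_nsmul]
        rw [e]
        exact h3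
      exact IdeleCoh54.UnrLocal.res_isCob₂_of_nsmul (locHom ℓ.1.1 L) H h n hc' hm' (hF ℓ hℓ)
    · refine ⟨fun _ => 0, fun g h' => ?_⟩
      rw [map_zero, sub_zero, add_zero]
      exact (hFmem ℓ hℓ _).symm

end Main

end Fermat.Agent.S55.Shapiro9.JSplitD2
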