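import Mathlib

/-!
# S55 (helper9): explicit Shapiro lemma in degree 2

`φ : Γ₀ →* G` a group homomorphism with a retraction `r : G → Γ₀`, `r (φ d * g) = d * r g`,
`r 1 = 1` (it exists as soon as `φ` is injective: choose coset representatives), `A : Rep k Γ₀`,
`M := Rep.coind φ A`.  On inhomogeneous cochains:

* `sh₂ F (d₁, d₂) = (F (φ d₁, φ d₂)) 1` (restriction along `φ`, then evaluation at `1`);
* `psi₂ x (g₁, g₂) = fun y => (r y) • x ((r y)⁻¹ * r (y g₁), (r (y g₁))⁻¹ * r (y g₁ g₂))`;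
* `sh₂ (psi₂ x) = x`, and for a `2`-cocycle `F`: `F - psi₂ (sh₂ F) = d (hom₂ F)` (explicit prism
  homotopy).

Hence `H²(G, Coind A) → H²(Γ₀, A)`, `[F] ↦ [sh₂ F]`, i.e. `groupCohomology.map φ ev 2`, is
bijective (`shapiro₂_bijective`).  Unlike Mathlib's `groupCohomology.coindIso` the map is explicit,
so that its compatibility with restriction/inflation/conjugation is functoriality of
`groupCohomology.map`.
-/

set_option autoImplicit false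

open CategoryTheory groupCohomology Rep

universe u

namespace Fermat.Agent.S55.Shapiro9

variable {k Γ₀ G : Type u} [CommRing k] [Group Γ₀] [Group G]

/-! ### the prism identity (pure algebra) -/

section Prism

variable {X A : Type*} [AddCommGroup A]

/-- the prism homotopy between `id` and `ρ` on homogeneous `2`-cochains -/
theorem prism_identity (Ψ : X → X → X → A)
    (hΨ : ∀ y₀ y₁ y₂ y₃, Ψ y₁ y₂ y₃ - Ψ y₀ y₂ y₃ + Ψ y₀ y₁ y₃ - Ψ y₀ y₁ y₂ = 0)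
    (ρ : X → X) (y₀ y₁ y₂ : X) :
    Ψ y₀ y₁ y₂ - Ψ (ρ y₀) (ρ y₁) (ρ y₂) =
      (Ψ y₁ y₂ (ρ y₂) - Ψ y₁ (ρ y₁) (ρ y₂)) - (Ψ y₀ y₂ (ρ y₂) - Ψ y₀ (ρ y₀) (ρ y₂)) +
        (Ψ y₀ y₁ (ρ y₁) - Ψ y₀ (ρ y₀) (ρ y₁)) := by
  have h1 := hΨ y₀ y₁ y₂ (ρ y₂)
  have h2 := hΨ y₀ y₁ (ρ y₁) (ρ y₂)
  have h3 := hΨ y₀ (ρ y₀) (ρ y₁) (ρ y₂)
  have key : Ψ y₀ y₁ y₂ - Ψ (ρ y₀) (ρ y₁) (ρ y₂) -
      ((Ψ y₁ y₂ (ρ y₂) - Ψ y₁ (ρ y₁) (ρ y₂)) - (Ψ y₀ y₂ (ρ y₂) - Ψ y₀ (ρ y₀) (ρ y₂)) +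
        (Ψ y₀ y₁ (ρ y₁) - Ψ y₀ (ρ y₀) (ρ y₁))) =
      - (Ψ y₁ y₂ (ρ y₂) - Ψ y₀ y₂ (ρ y₂) + Ψ y₀ y₁ (ρ y₂) - Ψ y₀ y₁ y₂)
      + (Ψ y₁ (ρ y₁) (ρ y₂) - Ψ y₀ (ρ y₁) (ρ y₂) + Ψ y₀ y₁ (ρ y₂) - Ψ y₀ y₁ (ρ y₁))
      - (Ψ (ρ y₀) (ρ y₁) (ρ y₂) - Ψ y₀ (ρ y₁) (ρ y₂) + Ψ y₀ (ρ y₀) (ρ y₂)
          - Ψ y₀ (ρ y₀) (ρ y₁)) := by
    abel
  rw [h1, h2, h3] at key
  simpa [sub_eq_zero] using key

end Prism

/-! ### retractions -/

/-- a retraction of `φ : Γ₀ →* G`: `r (φ d * g) = d * r g`, `r 1 = 1` -/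
structure Retraction (φ : Γ₀ →* G) where
  /-- the `Γ₀`-part of an element of `G` -/
  r : G → Γ₀
  r_mul : ∀ (d : Γ₀) (g : G), r (φ d * g) = d * r g
  r_one : r 1 = 1

namespace Retraction

variable {φ : Γ₀ →* G} (R : Retraction φ)

theorem r_φ (d : Γ₀) : R.r (φ d) = d := by
  have := R.r_mul d 1
  rwa [mul_one, R.r_one, mul_one] at this

/-- `ρ = φ ∘ r` -/
def ρ (g : G) : G := φ (R.r g)

theorem ρ_mul (d : Γ₀) (g : G) : R.ρ (φ d * g) = φ d * R.ρ g := by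
  unfold ρ
  rw [R.r_mul, map_mul]

end Retraction

/-- an injective homomorphism has a retraction -/
theorem exists_retraction (φ : Γ₀ →* G) (hφ : Function.Injective φ) : Nonempty (Retraction φ) := by
  classical
  -- representatives of the right cosets `φ(Γ₀) g`
  let s : Setoid G := QuotientGroup.rightRel φ.range
  let t : G → G := fun g => (Quotient.mk s g).out
  have ht : ∀ g, g * (t g)⁻¹ ∈ φ.range := by
    intro g
    have h : s.r (t g) g := Quotient.exact (Quotient.out_eq (Quotient.mk s g))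
    have h' := (QuotientGroup.rightRel_apply).1 h
    exact h'
  have ht' : ∀ (d : Γ₀) (g : G), t (φ d * g) = t g := by
    intro d g
    have : Quotient.mk s (φ d * g) = Quotient.mk s g := by
      apply Quotient.sound
      apply (QuotientGroup.rightRel_apply).2
      have : g * (φ d * g)⁻¹ = φ d⁻¹ := by
        rw [mul_inv_rev, map_inv]
        group
      rw [this]
      exact ⟨d⁻¹, rfl⟩
    show (Quotient.mk s (φ d * g)).out = (Quotient.mk s g).out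
    rw [this]
  choose r0 hr0 using ht
  have hr0' : ∀ (d : Γ₀) (g : G), r0 (φ d * g) = d * r0 g := by
    intro d g
    apply hφ
    rw [hr0, map_mul, hr0, ht', mul_assoc]
  refine ⟨⟨fun g => r0 g * (r0 1)⁻¹, ?_, ?_⟩⟩
  · intro d g
    rw [hr0', mul_assoc]
  · exact mul_inv_cancel _

/-! ### the explicit maps -/

variable (φ : Γ₀ →* G) (A : Rep.{u, u, u} k Γ₀)

/-- `M = Coind_φ A` -/
local notation "M" => Rep.coind φ A

theorem coind_ρ_apply (g : G) (f : M) (y : G) :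
    (((Rep.coind φ A).ρ g f : M) : G → A) y = (f : G → A) (y * g) := rfl

theorem coind_apply_mul (f : M) (d : Γ₀) (y : G) :
    (f : G → A) (φ d * y) = A.ρ d ((f : G → A) y) := f.2 d y

/-- evaluation at `1`: `Res_φ (Coind_φ A) ⟶ A` -/
noncomputable def ev : Rep.res φ (Rep.coind φ A) ⟶ A :=
  Rep.ofHom <| LinearMap.intertwiningMap_of_isIntertwiningMap
    (ρ := (Rep.res φ (Rep.coind φ A)).ρ) (σ := A.ρ)
    { toFun := fun f => (f : G → A) 1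
      map_add' := fun _ _ => rfl
      map_smul' := fun _ _ => rfl }
    (fun d f => by
      change (f : G → A) (1 * φ d) = A.ρ d ((f : G → A) 1)
      rw [one_mul, ← mul_one (φ d)]
      exact f.2 d 1)

theorem ev_hom_apply (f : M) : (ev φ A).hom f = (f : G → A) 1 := rfl

/-- restriction along `φ` followed by evaluation at `1`, on `2`-cochains -/
def sh₂ (F : G × G → M) : Γ₀ × Γ₀ → A := fun p => (F (φ p.1, φ p.2) : G → A) 1

/-- the same on `1`-cochains -/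
def sh₁ (β : G → M) : Γ₀ → A := fun d => (β (φ d) : G → A) 1

variable {φ A}

/-- coinduction of `1`-cochains -/
def psi₁ (R : Retraction φ) (b : Γ₀ → A) : G → M := fun g =>
  ⟨fun y => A.ρ (R.r y) (b ((R.r y)⁻¹ * R.r (y * g))), by
    intro d y
    show A.ρ (R.r (φ d * y)) (b ((R.r (φ d * y))⁻¹ * R.r (φ d * y * g))) =
      A.ρ d (A.ρ (R.r y) (b ((R.r y)⁻¹ * R.r (y * g))))
    rw [mul_assoc, R.r_mul, R.r_mul, map_mul]
    have : (d * R.r y)⁻¹ * (d * R.r (y * g)) = (R.r y)⁻¹ * R.r (y * g) := by group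
    rw [this]
    rfl⟩

/-- coinduction of `2`-cochains -/
def psi₂ (R : Retraction φ) (x : Γ₀ × Γ₀ → A) : G × G → M := fun p =>
  ⟨fun y => A.ρ (R.r y) (x ((R.r y)⁻¹ * R.r (y * p.1), (R.r (y * p.1))⁻¹ * R.r (y * p.1 * p.2))),
    by
    intro d y
    show A.ρ (R.r (φ d * y)) (x ((R.r (φ d * y))⁻¹ * R.r (φ d * y * p.1),
        (R.r (φ d * y * p.1))⁻¹ * R.r (φ d * y * p.1 * p.2))) =
      A.ρ d (A.ρ (R.r y) (x ((R.r y)⁻¹ * R.r (y * p.1),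
        (R.r (y * p.1))⁻¹ * R.r (y * p.1 * p.2))))
    have e1 : φ d * y * p.1 = φ d * (y * p.1) := mul_assoc _ _ _
    have e2 : φ d * y * p.1 * p.2 = φ d * (y * p.1 * p.2) := by group
    rw [e2, e1, R.r_mul, R.r_mul, R.r_mul, map_mul]
    have h1 : (d * R.r y)⁻¹ * (d * R.r (y * p.1)) = (R.r y)⁻¹ * R.r (y * p.1) := by group
    have h2 : (d * R.r (y * p.1))⁻¹ * (d * R.r (y * p.1 * p.2)) =
        (R.r (y * p.1))⁻¹ * R.r (y * p.1 * p.2) := by group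
    rw [h1, h2]
    rfl⟩

theorem psi₁_apply (R : Retraction φ) (b : Γ₀ → A) (g y : G) :
    (psi₁ R b g : G → A) y = A.ρ (R.r y) (b ((R.r y)⁻¹ * R.r (y * g))) := rfl

theorem psi₂_apply (R : Retraction φ) (x : Γ₀ × Γ₀ → A) (g₁ g₂ y : G) :
    (psi₂ R x (g₁, g₂) : G → A) y =
      A.ρ (R.r y) (x ((R.r y)⁻¹ * R.r (y * g₁), (R.r (y * g₁))⁻¹ * R.r (y * g₁ * g₂))) := rfl

theorem sh₂_psi₂ (R : Retraction φ) (x : Γ₀ × Γ₀ → A) : sh₂ φ A (psi₂ R x) = x := by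
  funext p
  obtain ⟨d₁, d₂⟩ := p
  show (psi₂ R x (φ d₁, φ d₂) : G → A) 1 = x (d₁, d₂)
  rw [psi₂_apply, R.r_one, one_mul, ← map_mul, R.r_φ, R.r_φ, inv_one, one_mul]
  have : d₁⁻¹ * (d₁ * d₂) = d₂ := by group
  rw [this]
  simp

theorem sh₁_psi₁ (R : Retraction φ) (b : Γ₀ → A) : sh₁ φ A (psi₁ R b) = b := by
  funext d
  show (psi₁ R b (φ d) : G → A) 1 = b d
  rw [psi₁_apply, R.r_one, one_mul, R.r_φ, inv_one, one_mul]
  simp


/-! ### cocycle identities in evaluated form -/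

section Cocycle

/-- the cocycle identity of a `Coind`-valued `2`-cocycle, evaluated at `y` -/
theorem cocycle_apply {F : G × G → M} (hF : F ∈ cocycles₂ (Rep.coind φ A)) (y g₁ g₂ g₃ : G) :
    (F (g₁ * g₂, g₃) : G → A) y + (F (g₁, g₂) : G → A) y =
      (F (g₂, g₃) : G → A) (y * g₁) + (F (g₁, g₂ * g₃) : G → A) y := by
  have h := (mem_cocycles₂_iff F).1 hF g₁ g₂ g₃
  exact congrArg (fun f : M => (f : G → A) y) h

/-- the homogeneous form `Ψ(y₀, y₁, y₂) = F(y₀⁻¹y₁, y₁⁻¹y₂)(y₀)` of a `Coind`-valued cochain -/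
def hPsi (F : G × G → M) (y₀ y₁ y₂ : G) : A := (F (y₀⁻¹ * y₁, y₁⁻¹ * y₂) : G → A) y₀

theorem hPsi_mul (F : G × G → M) (d : Γ₀) (y₀ y₁ y₂ : G) :
    hPsi F (φ d * y₀) (φ d * y₁) (φ d * y₂) = A.ρ d (hPsi F y₀ y₁ y₂) := by
  unfold hPsi
  have e1 : (φ d * y₀)⁻¹ * (φ d * y₁) = y₀⁻¹ * y₁ := by group
  have e2 : (φ d * y₁)⁻¹ * (φ d * y₂) = y₁⁻¹ * y₂ := by group
  rw [e1, e2]
  exact coind_apply_mul φ A _ d y₀

theorem hPsi_cocycle {F : G × G → M} (hF : F ∈ cocycles₂ (Rep.coind φ A)) (y₀ y₁ y₂ y₃ : G) :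
    hPsi F y₁ y₂ y₃ - hPsi F y₀ y₂ y₃ + hPsi F y₀ y₁ y₃ - hPsi F y₀ y₁ y₂ = 0 := by
  have h := cocycle_apply hF y₀ (y₀⁻¹ * y₁) (y₁⁻¹ * y₂) (y₂⁻¹ * y₃)
  have e1 : y₀⁻¹ * y₁ * (y₁⁻¹ * y₂) = y₀⁻¹ * y₂ := by group
  have e2 : y₁⁻¹ * y₂ * (y₂⁻¹ * y₃) = y₁⁻¹ * y₃ := by group
  have e3 : y₀ * (y₀⁻¹ * y₁) = y₁ := by group
  rw [e1, e2, e3] at h
  have : hPsi F y₁ y₂ y₃ - hPsi F y₀ y₂ y₃ + hPsi F y₀ y₁ y₃ - hPsi F y₀ y₁ y₂ =
      (hPsi F y₁ y₂ y₃ + hPsi F y₀ y₁ y₃) - (hPsi F y₀ y₂ y₃ + hPsi F y₀ y₁ y₂) := by abel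
  rw [this, sub_eq_zero]
  exact h.symm

theorem apply_eq_hPsi (F : G × G → M) (g₁ g₂ y : G) :
    (F (g₁, g₂) : G → A) y = hPsi F y (y * g₁) (y * g₁ * g₂) := by
  unfold hPsi
  have e1 : y⁻¹ * (y * g₁) = g₁ := by group
  have e2 : (y * g₁)⁻¹ * (y * g₁ * g₂) = g₂ := by group
  rw [e1, e2]

end Cocycle

/-! ### `sh₂` and `psi₂` preserve cocycles and coboundaries -/

section Maps

variable (R : Retraction φ)

theorem sh₂_mem_cocycles₂ {F : G × G → M} (hF : F ∈ cocycles₂ (Rep.coind φ A)) :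
    sh₂ φ A F ∈ cocycles₂ A := by
  rw [mem_cocycles₂_iff]
  intro d₁ d₂ d₃
  have h := cocycle_apply hF 1 (φ d₁) (φ d₂) (φ d₃)
  show (F (φ (d₁ * d₂), φ d₃) : G → A) 1 + (F (φ d₁, φ d₂) : G → A) 1 =
    A.ρ d₁ ((F (φ d₂, φ d₃) : G → A) 1) + (F (φ d₁, φ (d₂ * d₃)) : G → A) 1
  rw [map_mul, map_mul, h, one_mul]
  congr 1
  have := coind_apply_mul φ A (F (φ d₂, φ d₃)) d₁ 1
  rw [mul_one] at this
  exact this

theorem sh₂_d₁₂ (β : G → M) :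
    sh₂ φ A ((d₁₂ (Rep.coind φ A)).hom β) = (d₁₂ A).hom (sh₁ φ A β) := by
  funext p
  obtain ⟨d₁, d₂⟩ := p
  rw [d₁₂_hom_apply]
  show (((d₁₂ (Rep.coind φ A)).hom β (φ d₁, φ d₂) : M) : G → A) 1 = _
  rw [d₁₂_hom_apply]
  show (β (φ d₂) : G → A) (1 * φ d₁) - (β (φ d₁ * φ d₂) : G → A) 1 + (β (φ d₁) : G → A) 1 =
    A.ρ d₁ ((β (φ d₂) : G → A) 1) - (β (φ (d₁ * d₂)) : G → A) 1 + (β (φ d₁) : G → A) 1
  rw [map_mul, one_mul]
  congr 2
  have := coind_apply_mul φ A (β (φ d₂)) d₁ 1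
  rw [mul_one] at this
  exact this

theorem psi₂_d₁₂ (b : Γ₀ → A) :
    psi₂ R ((d₁₂ A).hom b) = (d₁₂ (Rep.coind φ A)).hom (psi₁ R b) := by
  funext p
  obtain ⟨g₁, g₂⟩ := p
  apply Subtype.ext
  funext y
  rw [d₁₂_hom_apply]
  show A.ρ (R.r y) ((d₁₂ A).hom b ((R.r y)⁻¹ * R.r (y * g₁), (R.r (y * g₁))⁻¹ * R.r (y * g₁ * g₂)))
    = (psi₁ R b g₂ : G → A) (y * g₁) - (psi₁ R b (g₁ * g₂) : G → A) y + (psi₁ R b g₁ : G → A) y
  rw [d₁₂_hom_apply, psi₁_apply, psi₁_apply, psi₁_apply, map_add, map_sub]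
  have e1 : (R.r y)⁻¹ * R.r (y * g₁) * ((R.r (y * g₁))⁻¹ * R.r (y * g₁ * g₂)) =
      (R.r y)⁻¹ * R.r (y * g₁ * g₂) := by group
  have e2 : y * (g₁ * g₂) = y * g₁ * g₂ := (mul_assoc _ _ _).symm
  rw [e1, e2]
  congr 2
  rw [← Module.End.mul_apply, ← map_mul]
  have e3 : R.r y * ((R.r y)⁻¹ * R.r (y * g₁)) = R.r (y * g₁) := by group
  rw [e3]

theorem psi₂_mem_cocycles₂ {x : Γ₀ × Γ₀ → A} (hx : x ∈ cocycles₂ A) :
    psi₂ R x ∈ cocycles₂ (Rep.coind φ A) := by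
  rw [mem_cocycles₂_iff]
  intro g₁ g₂ g₃
  apply Subtype.ext
  funext y
  show (psi₂ R x (g₁ * g₂, g₃) : G → A) y + (psi₂ R x (g₁, g₂) : G → A) y =
    (psi₂ R x (g₂, g₃) : G → A) (y * g₁) + (psi₂ R x (g₁, g₂ * g₃) : G → A) y
  rw [psi₂_apply, psi₂_apply, psi₂_apply, psi₂_apply]
  have hc := (mem_cocycles₂_iff x).1 hx ((R.r y)⁻¹ * R.r (y * g₁))
    ((R.r (y * g₁))⁻¹ * R.r (y * g₁ * g₂)) ((R.r (y * g₁ * g₂))⁻¹ * R.r (y * g₁ * g₂ * g₃))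
  have e1 : (R.r (y * g₁))⁻¹ * R.r (y * g₁ * g₂) * ((R.r (y * g₁ * g₂))⁻¹ * R.r (y * g₁ * g₂ * g₃))
      = (R.r (y * g₁))⁻¹ * R.r (y * g₁ * g₂ * g₃) := by group
  have e2 : (R.r y)⁻¹ * R.r (y * g₁) * ((R.r (y * g₁))⁻¹ * R.r (y * g₁ * g₂)) =
      (R.r y)⁻¹ * R.r (y * g₁ * g₂) := by group
  rw [e1, e2] at hc
  have e3 : y * (g₁ * g₂) = y * g₁ * g₂ := (mul_assoc _ _ _).symm
  have e4 : y * g₁ * (g₂ * g₃) = y * g₁ * g₂ * g₃ := (mul_assoc _ _ _).symm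
  rw [e3, e4]
  have hc' := congrArg (A.ρ (R.r y)) hc
  rw [map_add, map_add, ← Module.End.mul_apply, ← map_mul] at hc'
  have e5 : R.r y * ((R.r y)⁻¹ * R.r (y * g₁)) = R.r (y * g₁) := by group
  rw [e5] at hc'
  exact hc'

end Maps

/-! ### the homotopy -/

section Homotopy

variable (R : Retraction φ)

/-- the prism homotopy `C²(G, Coind A) → C¹(G, Coind A)` -/
def hom₂ (F : G × G → M) : G → M := fun g =>
  ⟨fun y => hPsi F y (y * g) (R.ρ (y * g)) - hPsi F y (R.ρ y) (R.ρ (y * g)), by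
    intro d y
    show hPsi F (φ d * y) (φ d * y * g) (R.ρ (φ d * y * g)) -
        hPsi F (φ d * y) (R.ρ (φ d * y)) (R.ρ (φ d * y * g)) =
      A.ρ d (hPsi F y (y * g) (R.ρ (y * g)) - hPsi F y (R.ρ y) (R.ρ (y * g)))
    rw [mul_assoc, R.ρ_mul, R.ρ_mul, hPsi_mul, hPsi_mul, map_sub]⟩

theorem hom₂_apply (F : G × G → M) (g y : G) :
    (hom₂ R F g : G → A) y =
      hPsi F y (y * g) (R.ρ (y * g)) - hPsi F y (R.ρ y) (R.ρ (y * g)) := rfl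

theorem psi₂_sh₂_apply (F : G × G → M) (g₁ g₂ y : G) :
    (psi₂ R (sh₂ φ A F) (g₁, g₂) : G → A) y = hPsi F (R.ρ y) (R.ρ (y * g₁)) (R.ρ (y * g₁ * g₂)) := by
  rw [psi₂_apply]
  unfold hPsi sh₂ Retraction.ρ
  show A.ρ (R.r y) ((F (φ ((R.r y)⁻¹ * R.r (y * g₁)),
      φ ((R.r (y * g₁))⁻¹ * R.r (y * g₁ * g₂))) : G → A) 1) = _
  rw [← coind_apply_mul, mul_one, map_mul, map_mul, map_inv, map_inv]

/-- **the homotopy identity**: a `2`-cocycle differs from `psi₂ (sh₂ F)` by an explicit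
coboundary -/
theorem sub_psi₂_sh₂ {F : G × G → M} (hF : F ∈ cocycles₂ (Rep.coind φ A)) :
    F - psi₂ R (sh₂ φ A F) = (d₁₂ (Rep.coind φ A)).hom (hom₂ R F) := by
  funext p
  obtain ⟨g₁, g₂⟩ := p
  apply Subtype.ext
  funext y
  rw [d₁₂_hom_apply]
  show (F (g₁, g₂) : G → A) y - (psi₂ R (sh₂ φ A F) (g₁, g₂) : G → A) y =
    (hom₂ R F g₂ : G → A) (y * g₁) - (hom₂ R F (g₁ * g₂) : G → A) y + (hom₂ R F g₁ : G → A) y
  rw [apply_eq_hPsi, psi₂_sh₂_apply, hom₂_apply, hom₂_apply, hom₂_apply]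
  have e : y * (g₁ * g₂) = y * g₁ * g₂ := (mul_assoc _ _ _).symm
  rw [e]
  exact prism_identity (hPsi F) (hPsi_cocycle hF) R.ρ y (y * g₁) (y * g₁ * g₂)

end Homotopy

/-! ### the statement on `H²` -/

section H2

variable (φ A)

/-- **Shapiro in degree 2, explicit form**: restriction along `φ` followed by evaluation at `1`
is a bijection `H²(G, Coind_φ A) → H²(Γ₀, A)`. -/
theorem shapiro₂_bijective (R : Retraction φ) :
    Function.Bijective (groupCohomology.map φ (ev φ A) 2).hom := by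
  constructor
  · rw [injective_iff_map_eq_zero]
    intro x hx
    induction x using H2_induction_on with | @h F =>
    have hx' : (groupCohomology.map φ (ev φ A) 2) (H2π _ F) = 0 := hx
    rw [H2π_comp_map_apply φ, H2π_eq_zero_iff, coe_mapCocycles₂] at hx'
    obtain ⟨b, hb⟩ := hx'
    have hb' : (d₁₂ A).hom b = sh₂ φ A F := hb
    rw [H2π_eq_zero_iff]
    have hh := sub_psi₂_sh₂ R F.2
    refine ⟨psi₁ R b + hom₂ R F.1, ?_⟩
    rw [map_add, ← psi₂_d₁₂, hb']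
    change psi₂ R (sh₂ φ A F.1) + (d₁₂ (Rep.coind φ A)).hom (hom₂ R F.1) = F.1
    rw [← hh]
    abel
  · intro x
    induction x using H2_induction_on with | @h c =>
    refine ⟨H2π _ ⟨psi₂ R c, psi₂_mem_cocycles₂ R c.2⟩, ?_⟩
    show (groupCohomology.map φ (ev φ A) 2) (H2π _ _) = _
    rw [H2π_comp_map_apply φ]
    congr 1
    apply Subtype.ext
    exact sh₂_psi₂ R c.1

/-- the value of the explicit Shapiro map on the class of a cocycle -/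
theorem shapiro₂_H2π (F : cocycles₂ (Rep.coind φ A)) :
    (groupCohomology.map φ (ev φ A) 2).hom (H2π _ F) =
      H2π A ⟨sh₂ φ A F, sh₂_mem_cocycles₂ F.2⟩ := by
  show (groupCohomology.map φ (ev φ A) 2) (H2π _ F) = _
  rw [H2π_comp_map_apply φ]
  congr 1

/-- for an injective `φ` no choice of retraction is needed -/
theorem shapiro₂_bijective_of_injective (hφ : Function.Injective φ) :
    Function.Bijective (groupCohomology.map φ (ev φ A) 2).hom :=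
  let ⟨R⟩ := exists_retraction φ hφ
  shapiro₂_bijective φ A R

end H2

end Fermat.Agent.S55.Shapiro9
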