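import Mathlib
import Fermat.Agent.S55.Idele73.Mackey

/-!
# S55 / 35-GLOBAL-INV (helper9): the power condition at cyclic decomposition groups

`ψ : Γ' →* Γ` with cyclic image `D = ψ.range` (an unramified decomposition group), `M ≤ H ≤ Γ`,
`x : Γ`.  If `n` divides the local degree `[Γ'_x(H) : Γ'_x(M)]` (`Γ'_x(H) = Mackey.twSub ψ H x`),
then every element `s` of `M` with `x s x⁻¹ ∈ D` is the `n`-th power of an element `s'` of `H`
with `x s' x⁻¹ ∈ D`: helper54's hypothesis `hpow` of `IdeleCoh54.UnrLocal.res_isCob₂_of_nsmul`.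
-/

set_option autoImplicit false
set_option linter.style.haveILetI false

namespace Fermat.Agent.S55.Shapiro9.PowCond

open Fermat.Agent.S55.Idele73

/-- in a finite cyclic group every element of a subgroup of index divisible by `n` is an `n`-th
power -/
theorem exists_pow_eq_of_dvd_index {C : Type*} [Group C] [IsCyclic C] [Finite C]
    (C' : Subgroup C) (n : ℕ) (hn : n ∣ C'.index) (t : C) (ht : t ∈ C') : ∃ y : C, t = y ^ n := by
  obtain ⟨g, hg⟩ := IsCyclic.exists_generator (α := C)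
  letI : CommGroup C := IsCyclic.commGroup
  haveI : C'.Normal := inferInstance
  obtain ⟨j, rfl⟩ := hg t
  -- the class of `g` generates the quotient, of order the index
  have hgen : ∀ z : C ⧸ C', z ∈ Subgroup.zpowers (QuotientGroup.mk g : C ⧸ C') := by
    intro z
    induction z using QuotientGroup.induction_on with
    | H a =>
      obtain ⟨i, rfl⟩ := hg a
      exact ⟨i, by simp⟩
  have hord : orderOf (QuotientGroup.mk g : C ⧸ C') = C'.index := by
    rw [orderOf_eq_card_of_forall_mem_zpowers hgen, Subgroup.index]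
  have h1 : (QuotientGroup.mk g : C ⧸ C') ^ j = 1 := by
    have : (QuotientGroup.mk (g ^ j) : C ⧸ C') = 1 := (QuotientGroup.eq_one_iff _).2 ht
    simpa using this
  have hdvd : (C'.index : ℤ) ∣ j := by
    rw [← hord]
    exact orderOf_dvd_iff_zpow_eq_one.2 h1
  obtain ⟨e, he⟩ := hn
  obtain ⟨j', hj'⟩ := hdvd
  refine ⟨g ^ ((e : ℤ) * j'), ?_⟩
  rw [← zpow_natCast, ← zpow_mul, hj', he]
  congr 1
  push_cast
  ring

variable {Γ Γ' : Type} [Group Γ] [Group Γ'] (ψ : Γ' →* Γ)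

/-- the conjugate `x H x⁻¹` as a comap -/
def conjSub (H : Subgroup Γ) (x : Γ) : Subgroup Γ := H.comap (MulAut.conj x⁻¹).toMonoidHom

lemma mem_conjSub {H : Subgroup Γ} {x d : Γ} : d ∈ conjSub H x ↔ x⁻¹ * d * x ∈ H := by
  unfold conjSub
  rw [Subgroup.mem_comap]
  simp

lemma twSub_eq_comap (H : Subgroup Γ) (x : Γ) :
    Mackey.twSub ψ H x = (conjSub H x).comap ψ := by
  ext τ
  rw [Mackey.mem_twSub, Subgroup.mem_comap, mem_conjSub]

/-- **the power condition from divisibility of the local degree**, for cyclic `ψ.range` -/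
theorem hpow_of_dvd_relIndex [Finite Γ] [IsCyclic ψ.range] {M H : Subgroup Γ} (h : M ≤ H)
    (x : Γ) (n : ℕ)
    (hn : n ∣ (Mackey.twSub ψ M x).relIndex (Mackey.twSub ψ H x))
    (s : M) (hs : x * (s : Γ) * x⁻¹ ∈ ψ.range) :
    ∃ s' : H, x * (s' : Γ) * x⁻¹ ∈ ψ.range ∧ (s : Γ) = (s' : Γ) ^ n := by
  set CH : Subgroup Γ := ψ.range ⊓ conjSub H x with hCH
  have hle : CH ≤ ψ.range := inf_le_left
  haveI : IsCyclic CH := Subgroup.isCyclic_of_le hle
  -- the index
  have hidx : ((conjSub M x).subgroupOf CH).index =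
      (Mackey.twSub ψ M x).relIndex (Mackey.twSub ψ H x) := by
    rw [twSub_eq_comap, twSub_eq_comap, Subgroup.relIndex_comap, Subgroup.map_comap_eq]
    rfl
  rw [← hidx] at hn
  -- the element `t = x s x⁻¹`
  have htH : x * (s : Γ) * x⁻¹ ∈ CH := by
    refine Subgroup.mem_inf.2 ⟨hs, ?_⟩
    rw [mem_conjSub]
    have : x⁻¹ * (x * (s : Γ) * x⁻¹) * x = s := by group
    rw [this]
    exact h s.2
  have htM : (⟨x * (s : Γ) * x⁻¹, htH⟩ : CH) ∈ (conjSub M x).subgroupOf CH := by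
    rw [Subgroup.mem_subgroupOf, mem_conjSub]
    have : x⁻¹ * (x * (s : Γ) * x⁻¹) * x = s := by group
    show x⁻¹ * (x * (s : Γ) * x⁻¹) * x ∈ M
    rw [this]
    exact s.2
  obtain ⟨y, hy⟩ := exists_pow_eq_of_dvd_index ((conjSub M x).subgroupOf CH) n hn _ htM
  have hyH : x⁻¹ * (y : Γ) * x ∈ H := mem_conjSub.1 y.2.2
  refine ⟨⟨x⁻¹ * (y : Γ) * x, hyH⟩, ?_, ?_⟩
  · have : x * (x⁻¹ * (y : Γ) * x) * x⁻¹ = y := by group
    show x * (x⁻¹ * (y : Γ) * x) * x⁻¹ ∈ ψ.range
    rw [this]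
    exact y.2.1
  · have hy' : x * (s : Γ) * x⁻¹ = (y : Γ) ^ n := by
      have := congrArg (fun z : CH => (z : Γ)) hy
      simpa using this
    show (s : Γ) = (x⁻¹ * (y : Γ) * x) ^ n
    have hconj : (x⁻¹ * (y : Γ) * x) ^ n = x⁻¹ * (y : Γ) ^ n * x := by
      have := conj_pow (a := x⁻¹) (b := (y : Γ)) (i := n)
      simpa using this
    rw [hconj, ← hy']
    group

end Fermat.Agent.S55.Shapiro9.PowCond
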