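import Fermat.Agent.S55.Shapiro9.JSplitD2
import Fermat.Agent.S55.Shapiro9.PowCond

/-!
# S55 / 35-GLOBAL-INV (helper9): (J3) for the D2 idele module, uniform local-degree form

`JSplitD2.exists_finset_rsMap_JIS_eq_zero` with ONE kind of arithmetic hypothesis: for the primes
`r ∈ S` and the finitely many `ℓ ∈ F` outside `S`, `n` divides all the local degrees
`[Γ_{r,g}(H) : Γ_{r,g}(M)]`, `Γ_{r,g}(H) = Mackey.twSub (locHom r L) H g` (double cosets of the
absolute local Galois group `Gq r`).  The decomposition groups outside `S` are assumed cyclic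
(`FrobFin98.isCyclic_range` for levels unramified outside `S`).
-/

set_option autoImplicit false
set_option linter.unusedSectionVars false

namespace Fermat.Agent.S55.Shapiro9.JSplitD2

open CategoryTheory groupCohomology Rep
open Fermat.Agent.S55.DegSum22 Fermat.Agent.S55.IdeleVal44
open Fermat.Agent.S55.Idele73 Fermat.Agent.S55.Idele73.Basic Fermat.Agent.S55.Idele73.Local

attribute [local instance] Fermat.Agent.S55.IdeleVal44.factPrimes44

variable (L : IntermediateField ℚ Qbar) [Normal ℚ L] [FiniteDimensional ℚ L]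

/-- the local degrees computed with the absolute local Galois group and with the decomposition
group of the level agree -/
theorem relIndex_twSub_locHom (q : ℕ) [Fact q.Prime] (M H : Subgroup (GalL L)) (g : GalL L) :
    (Mackey.twSub (locHom q L) M g).relIndex (Mackey.twSub (locHom q L) H g) =
      (Mackey.twSub (jE q L) M g).relIndex (Mackey.twSub (jE q L) H g) := by
  have e : ∀ K : Subgroup (GalL L),
      Mackey.twSub (locHom q L) K g = (Mackey.twSub (jE q L) K g).comap (resE q L) := by
    intro K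
    ext τ
    rw [Subgroup.mem_comap, Mackey.mem_twSub, Mackey.mem_twSub, jE_resE]
  rw [e M, e H, Subgroup.relIndex_comap,
    Subgroup.map_comap_eq_self_of_surjective (resE_surjective q L)]

variable (S : Finset Nat.Primes) {T : Type*} [AddCommGroup T]

/-- **(J3) for `J_S × I^S`, uniform local-degree form.** -/
theorem exists_finset_rsMap_JIS_eq_zero_of_dvd (n : ℕ)
    (I : ∀ q : InS S, LocInvSystem (EUnits q.1.1 L) T)
    (hinj : ∀ (q : InS S) (D : Subgroup (DE q.1.1 L))
      (u : H2 (Rep.res D.subtype (EUnits q.1.1 L))), n • u = 0 → (I q).inv D u = 0 → u = 0)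
    (hcyc : ∀ ℓ : OutS S, IsCyclic (locHom ℓ.1.1 L).range)
    (H : Subgroup (GalL L)) (x : H2 (Rep.res H.subtype (JIS L S))) (hx : n • x = 0) :
    ∃ F : Finset (OutS S), ∀ (M : Subgroup (GalL L)) (h : M ≤ H),
      (∀ (q : InS S) (g : GalL L), n ∣ (Mackey.twSub (locHom q.1.1 L) M g).relIndex
        (Mackey.twSub (locHom q.1.1 L) H g)) →
      (∀ ℓ ∈ F, ∀ g : GalL L, n ∣ (Mackey.twSub (locHom ℓ.1.1 L) M g).relIndex
        (Mackey.twSub (locHom ℓ.1.1 L) H g)) →
      rsMap (JIS L S) h x = 0 := by
  obtain ⟨F, hF⟩ := exists_finset_rsMap_JIS_eq_zero L S n I hinj H x hx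
  refine ⟨F, fun M h hS hout => hF M h ?_ ?_⟩
  · intro q g
    rw [← relIndex_twSub_locHom]
    exact hS q g
  · intro ℓ hℓ s γ hs
    have := hcyc ℓ
    exact PowCond.hpow_of_dvd_relIndex (locHom ℓ.1.1 L) h γ n (hout ℓ hℓ γ) s hs

end Fermat.Agent.S55.Shapiro9.JSplitD2
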