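import Fermat.Agent.S55.Shapiro9.JSplitD2b

/-!
# S55 / 35-GLOBAL-INV (helper9): (J3) for the D2 idele module, with an explicit support

Variant of `JSplitD2.exists_finset_rsMap_JIS_eq_zero(_of_dvd)` in which the finite set `F` of
primes outside `S` is GIVEN, together with the vanishing of the `ℓ`-components of the class for
`ℓ ∉ F` (at `H²` level).  This is the form to use after a change of level: the support of an
inflated class is contained in the support of the class.

* `exists_finset_support`  : every class has a finite support outside `S`;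
* `rsMap_JIS_eq_zero_of_support` / `rsMap_JIS_eq_zero_of_support_of_dvd` : (J3) with given support.
-/

set_option autoImplicit false
set_option linter.style.haveILetI false
set_option linter.unusedSectionVars false

namespace Fermat.Agent.S55.Shapiro9.JSplitD2

open CategoryTheory groupCohomology Rep
open Fermat.Agent.S55.GlobalInv91 Fermat.Agent.S55.DegSum22 Fermat.Agent.S55.IdeleVal44
open Fermat.Agent.S55.Idele73 Fermat.Agent.S55.Idele73.Basic Fermat.Agent.S55.Idele73.Local
open Fermat.Agent.S55.Shapiro9.SumSplit Fermat.Agent.S55.CycloRecip37.DescendK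

attribute [local instance] Fermat.Agent.S55.IdeleVal44.factPrimes44

variable (L : IntermediateField ℚ Qbar) [Normal ℚ L] [FiniteDimensional ℚ L]
  (S : Finset Nat.Primes) {T : Type*} [AddCommGroup T]

/-- every class of `H²(H, J_S × I^S)` has only finitely many non-trivial components outside
`S` -/
theorem exists_finset_support (H : Subgroup (GalL L))
    (x : H2 (Rep.res H.subtype (JIS L S))) :
    ∃ F : Finset (OutS S), ∀ ℓ, ℓ ∉ F → ps (compOut L S ℓ) H x = 0 := by
  classical
  have : Finite (GalL L) := inferInstance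
  induction x using H2_induction_on with
  | h c =>
  have hfin : Set.Finite (⋃ p : H × H, ((dsRep.toDS (fun ℓ : OutS S => Zq L ℓ.1.1)
      (prodRep.p2 (JS L S) (IS L S) (c p))).support : Set (OutS S))) :=
    Set.finite_iUnion (fun p => Finset.finite_toSet _)
  refine ⟨hfin.toFinset, fun ℓ hℓ => ?_⟩
  have hFmem : ∀ p : H × H,
      dsRep.toDS (fun ℓ : OutS S => Zq L ℓ.1.1) (prodRep.p2 (JS L S) (IS L S) (c p)) ℓ = 0 := by
    intro p
    by_contra hne
    apply hℓ
    rw [Set.Finite.mem_toFinset, Set.mem_iUnion]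
    exact ⟨p, by simpa using hne⟩
  rw [ps_H2π]
  have h0 : psCocycle (compOut L S ℓ) H c = 0 := by
    apply Subtype.ext
    funext p
    exact hFmem p
  rw [h0, map_zero]

/-- **(J3) for `J_S × I^S` with a given support**, helper54's power condition outside `S`. -/
theorem rsMap_JIS_eq_zero_of_support (n : ℕ)
    (I : ∀ q : InS S, LocInvSystem (EUnits q.1.1 L) T)
    (hinj : ∀ (q : InS S) (D : Subgroup (DE q.1.1 L))
      (u : H2 (Rep.res D.subtype (EUnits q.1.1 L))), n • u = 0 → (I q).inv D u = 0 → u = 0)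
    (H : Subgroup (GalL L)) (x : H2 (Rep.res H.subtype (JIS L S))) (hx : n • x = 0)
    (F : Finset (OutS S)) (hsupp : ∀ ℓ, ℓ ∉ F → ps (compOut L S ℓ) H x = 0)
    {M : Subgroup (GalL L)} (h : M ≤ H)
    (hS : ∀ (q : InS S) (g : GalL L), n ∣ (Mackey.twSub (jE q.1.1 L) M g).relIndex
      (Mackey.twSub (jE q.1.1 L) H g))
    (hF : ∀ ℓ ∈ F, ∀ (s : M) (γ : GalL L), γ * s * γ⁻¹ ∈ (locHom ℓ.1.1 L).range →
      ∃ s' : H, γ * s' * γ⁻¹ ∈ (locHom ℓ.1.1 L).range ∧ (s : GalL L) = (s' : GalL L) ^ n) :
    rsMap (JIS L S) h x = 0 := by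
  classical
  have : Finite (GalL L) := inferInstance
  induction x using H2_induction_on with
  | h c =>
  have hcob : IsCob₂ (Rep.res H.subtype (JIS L S)) (n • (c : H × H → JIS L S)) :=
    isCob₂_nsmul_of_nsmul_H2π H n c hx
  rw [rsMap_H2π]
  refine (H2π_eq_zero_iff _).2 ?_
  rw [← isCob₂_iff_mem]
  apply isCob₂_res_prodRep
  · apply isCob₂_res_dsRep
    intro q
    have hq : rsMap (Rep.coind (jE q.1.1 L) (EUnits q.1.1 L)) h
        (ps (compS L S q) H ((H2π (Rep.res H.subtype (JIS L S))).hom c)) = 0 := by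
      apply JSplit.rsMap_eq_zero_of_nsmul_eq_zero (EUnits q.1.1 L) (jE_injective q.1.1 L) (I q) n
        (hinj q) h
      · rw [← map_nsmul, hx, map_zero]
      · exact hS q
    have hq' : rsMap (Jq q.1.1 L) h
        (ps (projS L S q) H ((H2π (Rep.res H.subtype (JIS L S))).hom c)) = 0 := by
      rw [← compS_hom L S q, ps_comp, rsMap_ps, hq, map_zero]
    exact isCob₂_of_rsMap_ps_eq_zero (projS L S q) h c hq'
  · apply isCob₂_res_dsRep
    intro ℓ
    by_cases hℓ : ℓ ∈ F
    · letI : Fintype (GalL L) := Fintype.ofFinite _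
      have hc' : (fun p : H × H => (compOut L S ℓ).hom (c p)) ∈
          cocycles₂ (resH (IdeleCoh54.UnrSum.coindInt (locHom ℓ.1.1 L)) H) :=
        hom_comp_mem_cocycles₂ (compOut L S ℓ) H c
      have hm' : IsCob₂ (resH (IdeleCoh54.UnrSum.coindInt (locHom ℓ.1.1 L)) H)
          (n • fun p : H × H => (compOut L S ℓ).hom (c p)) := by
        have h3 := IsCob₂.hom_comp (compOut L S ℓ) H hcob
        have e : (n • fun p : H × H => (compOut L S ℓ).hom (c p)) =
            fun p : H × H => (compOut L S ℓ).hom ((n • (c : H × H → JIS L S)) p) := by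
          funext p
          rw [Pi.smul_apply, Pi.smul_apply, map_nsmul]
        rw [e]
        exact h3
      exact IdeleCoh54.UnrLocal.res_isCob₂_of_nsmul (locHom ℓ.1.1 L) H h n hc' hm' (hF ℓ hℓ)
    · have h0 : rsMap (Zq L ℓ.1.1) h
          (ps (compOut L S ℓ) H ((H2π (Rep.res H.subtype (JIS L S))).hom c)) = 0 := by
        rw [hsupp ℓ hℓ, map_zero]
      exact isCob₂_of_rsMap_ps_eq_zero (compOut L S ℓ) h c h0

/-- **(J3) for `J_S × I^S` with a given support**, uniform local-degree form. -/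
theorem rsMap_JIS_eq_zero_of_support_of_dvd (n : ℕ)
    (I : ∀ q : InS S, LocInvSystem (EUnits q.1.1 L) T)
    (hinj : ∀ (q : InS S) (D : Subgroup (DE q.1.1 L))
      (u : H2 (Rep.res D.subtype (EUnits q.1.1 L))), n • u = 0 → (I q).inv D u = 0 → u = 0)
    (hcyc : ∀ ℓ : OutS S, IsCyclic (locHom ℓ.1.1 L).range)
    (H : Subgroup (GalL L)) (x : H2 (Rep.res H.subtype (JIS L S))) (hx : n • x = 0)
    (F : Finset (OutS S)) (hsupp : ∀ ℓ, ℓ ∉ F → ps (compOut L S ℓ) H x = 0)
    {M : Subgroup (GalL L)} (h : M ≤ H)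
    (hS : ∀ (q : InS S) (g : GalL L), n ∣ (Mackey.twSub (locHom q.1.1 L) M g).relIndex
      (Mackey.twSub (locHom q.1.1 L) H g))
    (hF : ∀ ℓ ∈ F, ∀ g : GalL L, n ∣ (Mackey.twSub (locHom ℓ.1.1 L) M g).relIndex
      (Mackey.twSub (locHom ℓ.1.1 L) H g)) :
    rsMap (JIS L S) h x = 0 := by
  refine rsMap_JIS_eq_zero_of_support L S n I hinj H x hx F hsupp h ?_ ?_
  · intro q g
    rw [← relIndex_twSub_locHom]
    exact hS q g
  · intro ℓ hℓ s γ hs
    have := hcyc ℓ
    exact PowCond.hpow_of_dvd_relIndex (locHom ℓ.1.1 L) h γ n (hF ℓ hℓ γ) s hs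

end Fermat.Agent.S55.Shapiro9.JSplitD2
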