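import Fermat.Agent.S55.DegSum22.Inner
import Fermat.Agent.S55.GlobalInv91.Gen
import Fermat.Agent.S55.IdeleVal44.Class

/-!
# S55 / 35-GLOBAL-INV (helper9): `H²` of products and (infinite) direct sums, restricted to subgroups

Generic glue for (J3) on the full idele module `J_S × I^S` of the D2 model
(`IdeleVal44.JIS L S = prodRep (dsRep …) (dsRep …)`):

* `isCob₂_res_prodRep` / `isCob₂_res_dsRep` : a 2-cochain of a (finite) subgroup with values in a
  product / direct sum (any index type) all of whose components are coboundaries is a coboundary;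
* `rsMap_pushS₂` : restriction commutes with push-forward;
* `isCob₂_of_rsMap_pushS₂_eq_zero` : from `H²`-level vanishing back to cochains.
-/

set_option autoImplicit false

namespace Fermat.Agent.S55.Shapiro9.SumSplit

open CategoryTheory groupCohomology Rep
open Fermat.Agent.S55.GlobalInv91 Fermat.Agent.S55.DegSum22 Fermat.Agent.S55.IdeleVal44

section Generic

variable {k : Type} [CommRing k] {Γ : Type} [Group Γ]

/-- a morphism of representations, restricted to a subgroup (packaged with the domain in the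
shape `groupCohomology.map (MonoidHom.id D)` expects) -/
noncomputable def psRep {A B : Rep.{0} k Γ} (f : A ⟶ B) (D : Subgroup Γ) :
    Rep.res (MonoidHom.id D) (Rep.res D.subtype A) ⟶ Rep.res D.subtype B :=
  Rep.ofHom <| LinearMap.intertwiningMap_of_isIntertwiningMap
    (ρ := (Rep.res (MonoidHom.id D) (Rep.res D.subtype A)).ρ) (σ := (Rep.res D.subtype B).ρ)
    { toFun := fun a => f.hom a
      map_add' := fun a b => map_add f.hom a b
      map_smul' := fun r a => map_smul f.hom r a }
    (fun τ a => Rep.hom_comm_apply f (τ : Γ) a)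

/-- push-forward `H²(D, A) → H²(D, B)` -/
noncomputable def ps {A B : Rep.{0} k Γ} (f : A ⟶ B) (D : Subgroup Γ) :
    H2 (Rep.res D.subtype A) →ₗ[k] H2 (Rep.res D.subtype B) :=
  (groupCohomology.map (MonoidHom.id D) (psRep f D) 2).hom

/-- the pushed cocycle -/
noncomputable def psCocycle {A B : Rep.{0} k Γ} (f : A ⟶ B) (D : Subgroup Γ)
    (c : cocycles₂ (Rep.res D.subtype A)) : cocycles₂ (Rep.res D.subtype B) :=
  (mapCocycles₂ (MonoidHom.id D) (psRep f D)).hom c

lemma psCocycle_apply {A B : Rep.{0} k Γ} (f : A ⟶ B) (D : Subgroup Γ)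
    (c : cocycles₂ (Rep.res D.subtype A)) (τ₁ τ₂ : D) :
    (psCocycle f D c) (τ₁, τ₂) = f.hom (c (τ₁, τ₂)) := rfl

theorem ps_H2π {A B : Rep.{0} k Γ} (f : A ⟶ B) (D : Subgroup Γ)
    (c : cocycles₂ (Rep.res D.subtype A)) :
    ps f D ((H2π (Rep.res D.subtype A)).hom c) =
      (H2π (Rep.res D.subtype B)).hom (psCocycle f D c) := by
  unfold ps psCocycle
  exact H2π_comp_map_apply (MonoidHom.id D) (psRep f D) c

/-- restriction commutes with push-forward along a morphism of representations -/
theorem rsMap_ps {A B : Rep.{0} k Γ} (f : A ⟶ B) {D' D : Subgroup Γ} (h : D' ≤ D)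
    (x : H2 (Rep.res D.subtype A)) :
    rsMap B h (ps f D x) = ps f D' (rsMap A h x) := by
  induction x using H2_induction_on with
  | h c =>
    rw [ps_H2π, rsMap_H2π, rsMap_H2π, ps_H2π]
    apply H2π_congr
    intro τ₁ τ₂
    rfl

/-- push-forward is functorial -/
theorem ps_comp {A B C : Rep.{0} k Γ} (f : A ⟶ B) (g : B ⟶ C) (D : Subgroup Γ)
    (x : H2 (Rep.res D.subtype A)) : ps (f ≫ g) D x = ps g D (ps f D x) := by
  induction x using H2_induction_on with
  | h c =>
    rw [ps_H2π, ps_H2π, ps_H2π]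
    apply H2π_congr
    intro τ₁ τ₂
    rfl

/-- from `H²`-level vanishing of a restricted push-forward back to cochains -/
theorem isCob₂_of_rsMap_ps_eq_zero {A B : Rep.{0} k Γ} (f : A ⟶ B) {D' D : Subgroup Γ}
    (h : D' ≤ D) (c : cocycles₂ (Rep.res D.subtype A))
    (h0 : rsMap B h (ps f D ((H2π (Rep.res D.subtype A)).hom c)) = 0) :
    IsCob₂ (Rep.res D'.subtype B)
      (fun p : D' × D' => f.hom (c (Subgroup.inclusion h p.1, Subgroup.inclusion h p.2))) := by
  rw [ps_H2π, rsMap_H2π] at h0
  have h2 := (H2π_eq_zero_iff _).1 h0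
  rw [isCob₂_iff_mem]
  exact h2

end Generic

section Prod

variable {k : Type} [CommRing k] {Γ : Type} [Group Γ]

/-- a cochain with values in a product whose two components are coboundaries is a coboundary -/
theorem isCob₂_res_prodRep (M : Subgroup Γ) (A B : Rep.{0} k Γ) (c : M × M → prodRep A B)
    (h1 : IsCob₂ (Rep.res M.subtype A) (fun p => prodRep.p1 A B (c p)))
    (h2 : IsCob₂ (Rep.res M.subtype B) (fun p => prodRep.p2 A B (c p))) :
    IsCob₂ (Rep.res M.subtype (prodRep A B)) c := by
  obtain ⟨x1, hx1⟩ := h1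
  obtain ⟨x2, hx2⟩ := h2
  refine ⟨fun s => prodRep.mk A B (x1 s) (x2 s), fun g h => ?_⟩
  apply prodRep.ext
  · exact hx1 g h
  · exact hx2 g h

end Prod

section DS

variable {Γ : Type} [Group Γ] {ι : Type} (A : ι → Rep.{0} ℤ Γ)

open Classical in
/-- a cochain of a finite subgroup with values in a direct sum (any index type) all of whose
components are coboundaries is a coboundary -/
theorem isCob₂_res_dsRep (M : Subgroup Γ) [Finite M] (c : M × M → dsRep A)
    (h : ∀ i, IsCob₂ (Rep.res M.subtype (A i)) (fun p => dsRep.toDS A (c p) i)) :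
    IsCob₂ (Rep.res M.subtype (dsRep A)) c := by
  choose β hβ using h
  have hfin : Set.Finite (⋃ p : M × M, ((dsRep.toDS A (c p)).support : Set ι)) :=
    Set.finite_iUnion (fun p => Finset.finite_toSet _)
  set F : Finset ι := hfin.toFinset with hF
  have hFmem : ∀ i, i ∉ F → ∀ p : M × M, dsRep.toDS A (c p) i = 0 := by
    intro i hi p
    by_contra hne
    apply hi
    rw [hF, Set.Finite.mem_toFinset, Set.mem_iUnion]
    exact ⟨p, by simpa using hne⟩
  let x : M → dsRep A := fun s =>
    dsRep.ofDS A (DirectSum.mk (fun i => (A i).V) F (fun i => β i.1 s))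
  have hx_mem : ∀ (s : M) (i : ι) (hi : i ∈ F), dsRep.toDS A (x s) i = β i s := by
    intro s i hi
    exact DirectSum.mk_apply_of_mem hi
  have hx_not : ∀ (s : M) (i : ι), i ∉ F → dsRep.toDS A (x s) i = 0 := by
    intro s i hi
    exact DirectSum.mk_apply_of_notMem hi
  refine ⟨x, fun g h => ?_⟩
  apply dsRep.ext
  intro i
  have hcoord : dsRep.toDS A ((Rep.res M.subtype (dsRep A)).ρ g (x h) - x (g * h) + x g) i =
      (A i).ρ (g : Γ) (dsRep.toDS A (x h) i) - dsRep.toDS A (x (g * h)) i +
        dsRep.toDS A (x g) i := rfl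
  rw [hcoord]
  by_cases hi : i ∈ F
  · rw [hx_mem _ i hi, hx_mem _ i hi, hx_mem _ i hi]
    exact hβ i g h
  · rw [hx_not _ i hi, hx_not _ i hi, hx_not _ i hi, hFmem i hi, map_zero, sub_zero, add_zero]

end DS

end Fermat.Agent.S55.Shapiro9.SumSplit
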